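import Mathlib
import Fermat.Prelude.Def_ModularCurve_ArithmeticGalois
import Fermat.Prelude.Def_ModularCurve_X0ModL
import Fermat.Agent.S18.Core.Defs
import Fermat.Agent.S18.Core.Descend
import Fermat.Agent.S18.Core.DescentBasic

/-!
# Program S, (DICT) : the Galois action on the `E`-form `F_E(N)` of the modular function field

* `ssdAut E N : (E ≃ₐ[ℚ] E) →* SemilinearAut E (modularFunctionFieldFullC E N)` : the coefficientwise
  action (the analogue of the Prelude `arithmeticGalois` for `modularFunctionFieldFullC E N`);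
* `ssdUp E N : F_E(N) →+* F_ℚ̄(N)` : the base change (restriction of `s18dUp`);
* `ssdUp_aut` : compatibility with the Prelude action of `Gal(ℚ̄/ℚ)` on `F_ℚ̄(N)`.
-/

set_option autoImplicit false
set_option linter.unusedSectionVars false
set_option linter.unusedVariables false

noncomputable section

namespace Fermat.Agent.SS

open ModularCurve AlgebraicCurve IntermediateField Fermat.Agent.S18

abbrev SsdQb : Type := AlgebraicClosure ℚ

variable (E : IntermediateField ℚ (AlgebraicClosure ℚ)) (N : ℕ)

/-- the coefficientwise ring automorphism of `F_E(N)` attached to `σ ∈ Gal(E/ℚ)` -/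
def ssdAutRing (σ : E ≃ₐ[ℚ] E) :
    (modularFunctionFieldFullC E N) ≃+* (modularFunctionFieldFullC E N) where
  toFun x := ⟨coeffMap (σ : E →+* E) (x : LaurentSeries E),
    s18dd_coeffMap_mem_full (σ : E →+* E) N x.2⟩
  invFun x := ⟨coeffMap (σ.symm : E →+* E) (x : LaurentSeries E),
    s18dd_coeffMap_mem_full (σ.symm : E →+* E) N x.2⟩
  left_inv x := Subtype.ext <| by
    show coeffMap (σ.symm : E →+* E) (coeffMap (σ : E →+* E) (x : LaurentSeries E))
      = (x : LaurentSeries E)
    rw [coeffMap_coeffMap,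
      coeffMap_congr (g := RingHom.id E) (RingHom.ext fun a => σ.symm_apply_apply a)
        (x : LaurentSeries E),
      coeffMap_id]
  right_inv x := Subtype.ext <| by
    show coeffMap (σ : E →+* E) (coeffMap (σ.symm : E →+* E) (x : LaurentSeries E))
      = (x : LaurentSeries E)
    rw [coeffMap_coeffMap,
      coeffMap_congr (g := RingHom.id E) (RingHom.ext fun a => σ.apply_symm_apply a)
        (x : LaurentSeries E),
      coeffMap_id]
  map_mul' x y :=
    Subtype.ext (map_mul (coeffMap (σ : E →+* E)) (x : LaurentSeries E) (y : LaurentSeries E))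
  map_add' x y :=
    Subtype.ext (map_add (coeffMap (σ : E →+* E)) (x : LaurentSeries E) (y : LaurentSeries E))

@[simp]
theorem coe_ssdAutRing_apply (σ : E ≃ₐ[ℚ] E) (x : modularFunctionFieldFullC E N) :
    (ssdAutRing E N σ x : LaurentSeries E) = coeffMap (σ : E →+* E) (x : LaurentSeries E) :=
  rfl

theorem ssdAutRing_algebraMap (σ : E ≃ₐ[ℚ] E) (a : E) :
    ssdAutRing E N σ (algebraMap E (modularFunctionFieldFullC E N) a)
      = algebraMap E (modularFunctionFieldFullC E N) (σ a) :=
  Subtype.ext (coeffMap_algebraMap (σ : E →+* E) a)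

/-- THE GALOIS ACTION on the `E`-form. -/
def ssdAut : (E ≃ₐ[ℚ] E) →* SemilinearAut E (modularFunctionFieldFullC E N) where
  toFun σ := ⟨(ssdAutRing E N σ, σ.toRingEquiv), fun a => ssdAutRing_algebraMap E N σ a⟩
  map_one' := by
    refine Subtype.ext (Prod.ext (RingEquiv.ext fun x => Subtype.ext ?_) rfl)
    show coeffMap ((1 : E ≃ₐ[ℚ] E) : E →+* E) (x : LaurentSeries E) = (x : LaurentSeries E)
    rw [show ((1 : E ≃ₐ[ℚ] E) : E →+* E) = RingHom.id E from RingHom.ext fun _ => rfl,
      coeffMap_id]
  map_mul' σ τ := by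
    refine Subtype.ext (Prod.ext (RingEquiv.ext fun x => Subtype.ext ?_) rfl)
    show coeffMap ((σ * τ : E ≃ₐ[ℚ] E) : E →+* E) (x : LaurentSeries E)
      = coeffMap (σ : E →+* E) (coeffMap (τ : E →+* E) (x : LaurentSeries E))
    rw [coeffMap_coeffMap]
    exact coeffMap_congr (RingHom.ext fun _ => rfl) _

theorem coe_ssdAut_smul (σ : E ≃ₐ[ℚ] E) (x : modularFunctionFieldFullC E N) :
    ((ssdAut E N σ • x : modularFunctionFieldFullC E N) : LaurentSeries E)
      = coeffMap (σ : E →+* E) (x : LaurentSeries E) :=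
  rfl

@[simp]
theorem baseAut_ssdAut (σ : E ≃ₐ[ℚ] E) :
    SemilinearAut.baseAut (ssdAut E N σ) = σ.toRingEquiv :=
  rfl

/-- the base change `F_E(N) → F_ℚ̄(N)` -/
def ssdUp [NeZero N] : modularFunctionFieldFullC E N →+* modularFunctionFieldBar N where
  toFun x := ⟨s18dUp E (x : LaurentSeries E), s18db_up_mem E N _ x.2⟩
  map_one' := Subtype.ext (map_one _)
  map_mul' x y := Subtype.ext (map_mul _ _ _)
  map_zero' := Subtype.ext (map_zero _)
  map_add' x y := Subtype.ext (map_add _ _ _)

@[simp]
theorem coe_ssdUp [NeZero N] (x : modularFunctionFieldFullC E N) :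
    ((ssdUp E N x : modularFunctionFieldBar N) : LaurentSeries (AlgebraicClosure ℚ)) =
      s18dUp E (x : LaurentSeries E) :=
  rfl

theorem ssdUp_injective [NeZero N] : Function.Injective (ssdUp E N) :=
  (ssdUp E N).injective

/-- constants go to constants -/
theorem ssdUp_algebraMap [NeZero N] (c : E) :
    ssdUp E N (algebraMap E (modularFunctionFieldFullC E N) c) =
      algebraMap (AlgebraicClosure ℚ) (modularFunctionFieldBar N)
        (algebraMap E (AlgebraicClosure ℚ) c) := by
  apply Subtype.ext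
  show s18dUp E (algebraMap E (LaurentSeries E) c) = _
  rw [s18dd_coeffMap_algebraMap]
  rfl

/-- compatibility of the two Galois actions -/
theorem ssdUp_aut [NeZero N] [Normal ℚ E] (σ : AlgebraicClosure ℚ ≃ₐ[ℚ] AlgebraicClosure ℚ)
    (x : modularFunctionFieldFullC E N) :
    ssdUp E N (ssdAut E N (σ.restrictNormal E) • x) =
      arithmeticGalois (modularFunctionFieldFull N) σ • ssdUp E N x := by
  apply Subtype.ext
  show s18dUp E (coeffMap ((σ.restrictNormal E : E ≃ₐ[ℚ] E) : E →+* E) (x : LaurentSeries E)) =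
    coeffMap (σ : AlgebraicClosure ℚ →+* AlgebraicClosure ℚ) (s18dUp E (x : LaurentSeries E))
  rw [coeffMap_coeffMap, coeffMap_coeffMap]
  refine coeffMap_congr (RingHom.ext fun a => ?_) _
  exact AlgEquiv.restrictNormal_commutes σ E a

end Fermat.Agent.SS
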