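import Mathlib
import Fermat.Prelude.Def_ModularCurve_ArithmeticGalois
import Fermat.Prelude.Def_ModularCurve_X0ModL
import Fermat.Agent.S18.Core.Defs
import Fermat.Agent.S18.Core.Descend
import Fermat.Agent.S18.Core.DescentBasic
import Fermat.Agent.S18.A.ConstCore
import Fermat.Agent.S18.V.Spec
import Fermat.Agent.S18.RH.W
import Fermat.Agent.S18.RH.Val
import Fermat.Agent.S18.RH.Restrict
import Fermat.Agent.S24.Degree
import Fermat.Agent.S24.PlaceOrd
import Fermat.Agent.SS.Dict.Aut

/-!
# Program S, (DICT) : places of `F_ℚ̄(N)` versus places of the `E`-form `F_E(N)`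

* `ssd_weak_place`, `ssd_weak_place_bar` : weak places are places (both levels);
* `ssd_isAlgebraic` : `F_ℚ̄(N)` is algebraic over (the image of) `F_E(N)`;
* `ssd_restrict` : a place `R̃` of `F_ℚ̄(N)` restricts to a place `R` of `F_E(N)`,
  `ord_R̃ (x) = r · ord_R (x)` on `F_E(N)`, `r > 0`;
* `ssd_extend` : every place of `F_E(N)` is the restriction of a place of `F_ℚ̄(N)`.
-/

set_option autoImplicit false
set_option linter.unusedSectionVars false
set_option linter.unusedVariables false
set_option linter.style.haveILetI false

noncomputable section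

namespace Fermat.Agent.SS

open ModularCurve AlgebraicCurve IntermediateField Polynomial Fermat.Agent.S18 Fermat.Agent.S24

variable (E : IntermediateField ℚ (AlgebraicClosure ℚ)) (N : ℕ) [NeZero N]

/-- the coordinate `j` of the `E`-form -/
def ssdJ : modularFunctionFieldFullC E N := ⟨jqModC E, jqModC_mem_full E N⟩

theorem ssd_transcendental_j : Transcendental E (ssdJ E N) := by
  intro halg
  have h1 : IsAlgebraic E ((ssdJ E N : modularFunctionFieldFullC E N) : LaurentSeries E) :=
    (isAlgebraic_algebraMap_iff
      (algebraMap (modularFunctionFieldFullC E N) (LaurentSeries E)).injective).mpr halg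
  have h0 : (jqModC E : LaurentSeries E) ≠ 0 := by
    intro h
    have := s18db_order_jqModC (k := E)
    rw [h, HahnSeries.order_zero] at this
    omega
  have h2 := s18ac_order_eq_zero (jqModC E) h0 h1
  rw [s18db_order_jqModC] at h2
  omega

theorem ssd_finiteDimensional_j :
    FiniteDimensional E⟮ssdJ E N⟯ (modularFunctionFieldFullC E N) :=
  (s18v_finrank_le E N).1

/-- weak places of the `E`-form are places -/
theorem ssd_weak_place (W : ValuationSubring (modularFunctionFieldFullC E N))
    (hW : S18IsPlace E W) :
    ∃ P : Place E (modularFunctionFieldFullC E N), P.toValuationSubring = W := by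
  haveI := ssd_finiteDimensional_j E N
  exact s18r_exists_place (ssdJ E N) (ssd_transcendental_j E N) W hW

/-- weak places of `F_ℚ̄(N)` are places -/
theorem ssd_weak_place_bar (W : ValuationSubring (modularFunctionFieldBar N))
    (hW : S18IsPlace (AlgebraicClosure ℚ) W) :
    ∃ P : Place (AlgebraicClosure ℚ) (modularFunctionFieldBar N), P.toValuationSubring = W := by
  haveI := finiteDimensional_jBar N
  exact s18r_exists_place (jBar N) (transcendental_jBar N) W hW

/-- `F_ℚ̄(N)` is algebraic over the image of `F_E(N)`. -/
theorem ssd_isAlgebraic (x : modularFunctionFieldBar N) :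
    ∃ p : (modularFunctionFieldFullC E N)[X], p ≠ 0 ∧ p.eval₂ (ssdUp E N) x = 0 := by
  letI : Algebra (modularFunctionFieldFullC E N) (modularFunctionFieldBar N) :=
    (ssdUp E N).toAlgebra
  suffices h : IsAlgebraic (modularFunctionFieldFullC E N) x by
    obtain ⟨p, hp0, hp⟩ := h
    exact ⟨p, hp0, by rwa [aeval_def] at hp⟩
  -- closure induction on the underlying series
  have key : ∀ y : LaurentSeries (AlgebraicClosure ℚ), ∀ hy : y ∈ modularFunctionFieldBar N,
      IsAlgebraic (modularFunctionFieldFullC E N) (⟨y, hy⟩ : modularFunctionFieldBar N) := by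
    intro y hy
    have hy' := hy
    rw [mem_laurentBaseChange_iff] at hy'
    induction hy' using Subfield.closure_induction with
    | mem y hy0 =>
      rcases hy0 with ⟨c, rfl⟩ | ⟨w, hw, rfl⟩
      · -- a constant
        haveI : Algebra.IsAlgebraic ℚ (AlgebraicClosure ℚ) := AlgebraicClosure.isAlgebraic ℚ
        have hc : IsAlgebraic ℚ c := Algebra.IsAlgebraic.isAlgebraic c
        have hc' : IsAlgebraic ℚ (algebraMap (AlgebraicClosure ℚ) (modularFunctionFieldBar N) c) :=
          hc.algebraMap
        have : (⟨algebraMap (AlgebraicClosure ℚ) (LaurentSeries (AlgebraicClosure ℚ)) c, hy⟩ :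
            modularFunctionFieldBar N) =
            algebraMap (AlgebraicClosure ℚ) (modularFunctionFieldBar N) c := rfl
        rw [this]
        exact hc'.tower_top (modularFunctionFieldFullC E N)
      · -- a rational series
        have hmem : coeffMap (algebraMap ℚ E) w ∈ modularFunctionFieldFullC E N :=
          s18dd_coeffMap_mem_full _ N hw
        have : (⟨coeffEmb (AlgebraicClosure ℚ) w, hy⟩ : modularFunctionFieldBar N) =
            algebraMap (modularFunctionFieldFullC E N) (modularFunctionFieldBar N)
              ⟨coeffMap (algebraMap ℚ E) w, hmem⟩ := by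
          apply Subtype.ext
          show coeffEmb (AlgebraicClosure ℚ) w = s18dUp E (coeffMap (algebraMap ℚ E) w)
          rw [coeffMap_coeffMap]
          exact coeffMap_congr (RingHom.ext fun r => rfl) w
        rw [this]
        exact isAlgebraic_algebraMap _
    | one =>
      have : (⟨1, hy⟩ : modularFunctionFieldBar N) = 1 := rfl
      rw [this]; exact isAlgebraic_one
    | add a b ha hb iha ihb =>
      have ha' : a ∈ modularFunctionFieldBar N := mem_laurentBaseChange_iff.mpr ha
      have hb' : b ∈ modularFunctionFieldBar N := mem_laurentBaseChange_iff.mpr hb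
      have : (⟨a + b, hy⟩ : modularFunctionFieldBar N) = ⟨a, ha'⟩ + ⟨b, hb'⟩ := rfl
      rw [this]; exact (iha ha').add (ihb hb')
    | neg a ha iha =>
      have ha' : a ∈ modularFunctionFieldBar N := mem_laurentBaseChange_iff.mpr ha
      have : (⟨-a, hy⟩ : modularFunctionFieldBar N) = -⟨a, ha'⟩ := rfl
      rw [this]; exact (iha ha').neg
    | inv a ha iha =>
      have ha' : a ∈ modularFunctionFieldBar N := mem_laurentBaseChange_iff.mpr ha
      have : (⟨a⁻¹, hy⟩ : modularFunctionFieldBar N) = (⟨a, ha'⟩)⁻¹ := rfl
      rw [this]; exact (iha ha').inv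
    | mul a b ha hb iha ihb =>
      have ha' : a ∈ modularFunctionFieldBar N := mem_laurentBaseChange_iff.mpr ha
      have hb' : b ∈ modularFunctionFieldBar N := mem_laurentBaseChange_iff.mpr hb
      have : (⟨a * b, hy⟩ : modularFunctionFieldBar N) = ⟨a, ha'⟩ * ⟨b, hb'⟩ := rfl
      rw [this]; exact (iha ha').mul (ihb hb')
  exact key x.1 x.2


/-- a place of `F_ℚ̄(N) / ℚ̄` is a place over `E` with the same valuation ring. -/
def ssdPlaceE (R : Place (AlgebraicClosure ℚ) (modularFunctionFieldBar N)) :
    Place E (modularFunctionFieldBar N) where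
  toValuationSubring := R.toValuationSubring
  algebraMap_mem' := fun a => by
    rw [IsScalarTower.algebraMap_apply E (AlgebraicClosure ℚ) (modularFunctionFieldBar N)]
    exact R.algebraMap_mem' _
  ne_top' := R.ne_top'
  isPrincipalIdealRing' := R.isPrincipalIdealRing'

theorem ssdPlaceE_ord (R : Place (AlgebraicClosure ℚ) (modularFunctionFieldBar N))
    (x : modularFunctionFieldBar N) : (ssdPlaceE E N R).ord x = R.ord x := rfl

/-- restriction of a place of `F_ℚ̄(N)` to the `E`-form. -/
theorem ssd_restrict (R' : Place (AlgebraicClosure ℚ) (modularFunctionFieldBar N)) :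
    ∃ (R : Place E (modularFunctionFieldFullC E N)) (r : ℕ), 0 < r ∧
      R.toValuationSubring = R'.toValuationSubring.comap (ssdUp E N) ∧
      ∀ x : modularFunctionFieldFullC E N, R'.ord (ssdUp E N x) = r * R.ord x := by
  letI i0 : Algebra E (modularFunctionFieldFullC E N) := inferInstance
  letI i1 : Algebra (modularFunctionFieldFullC E N) (modularFunctionFieldBar N) :=
    (ssdUp E N).toAlgebra
  haveI : IsScalarTower E (modularFunctionFieldFullC E N) (modularFunctionFieldBar N) :=
    @IsScalarTower.of_algebraMap_eq E (modularFunctionFieldFullC E N) (modularFunctionFieldBar N)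
      _ _ _ i0 i1 _ fun c => by
      rw [IsScalarTower.algebraMap_apply E (AlgebraicClosure ℚ) (modularFunctionFieldBar N)]
      exact (ssdUp_algebraMap E N c).symm
  haveI : Algebra.IsAlgebraic (modularFunctionFieldFullC E N) (modularFunctionFieldBar N) :=
    ⟨fun x => by
      obtain ⟨p, hp0, hp⟩ := ssd_isAlgebraic E N x
      exact ⟨p, hp0, by rw [aeval_def]; exact hp⟩⟩
  obtain ⟨R, r, hr, hR, hord⟩ := s18r_place_restrict (K := E)
    (F₀ := modularFunctionFieldFullC E N) (F₁ := modularFunctionFieldBar N)
    (ssd_weak_place E N) (ssdPlaceE E N R')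
  exact ⟨R, r, hr, hR, hord⟩

/-- lying over : every place of the `E`-form is the restriction of a place of `F_ℚ̄(N)`. -/
theorem ssd_extend (R : Place E (modularFunctionFieldFullC E N)) :
    ∃ R' : Place (AlgebraicClosure ℚ) (modularFunctionFieldBar N),
      R'.toValuationSubring.comap (ssdUp E N) = R.toValuationSubring := by
  obtain ⟨W, hW⟩ := s18r_exists_extension (ssdUp E N) R.toValuationSubring
  have hWp : S18IsPlace (AlgebraicClosure ℚ) W := by
    refine ⟨fun htop => R.ne_top' ?_, fun c => ?_⟩
    · rw [← hW, htop]
      exact SetLike.ext fun x => ⟨fun _ => ValuationSubring.mem_top _, fun _ => by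
        rw [ValuationSubring.mem_comap]; exact ValuationSubring.mem_top _⟩
    · -- `c` is integral over `ℚ`
      haveI : Algebra.IsAlgebraic ℚ (AlgebraicClosure ℚ) := AlgebraicClosure.isAlgebraic ℚ
      obtain ⟨Q, hQm, hQx⟩ := (Algebra.IsAlgebraic.isAlgebraic (R := ℚ) c).isIntegral
      refine s18r_mem_of_monic_root W
        (algebraMap ℚ (modularFunctionFieldBar N)) (fun a => ?_)
        (algebraMap (AlgebraicClosure ℚ) (modularFunctionFieldBar N) c) Q hQm ?_
      · have h1 : algebraMap ℚ (modularFunctionFieldBar N) a =
            ssdUp E N (algebraMap E (modularFunctionFieldFullC E N) (algebraMap ℚ E a)) := by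
          rw [ssdUp_algebraMap, ← IsScalarTower.algebraMap_apply,
            ← IsScalarTower.algebraMap_apply]
        rw [h1, ← ValuationSubring.mem_comap, hW]
        exact R.algebraMap_mem' _
      · rw [IsScalarTower.algebraMap_eq ℚ (AlgebraicClosure ℚ) (modularFunctionFieldBar N),
          ← Polynomial.hom_eval₂, hQx, map_zero]
  obtain ⟨R', hR'⟩ := ssd_weak_place_bar N W hWp
  exact ⟨R', by rw [hR', hW]⟩

end Fermat.Agent.SS
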