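import Mathlib
import Fermat.Agent.SS.Dict.Aut
import Fermat.Agent.G.Red.Val
import Fermat.Agent.G.FF.Hecke
import Fermat.Agent.S24.Degree
import Fermat.Agent.S24.PlaceOrd

/-!
# Program S, (DICT) : a place of `F_ℚ̄(N)` is rational over a number field

`ssd_exists_rational` : for a place `R` of `F_ℚ̄(N)` there is a number field `E₁` such that for
every `E ⊇ E₁` : `R` has a uniformiser in (the image of) `F_E(N)`, and every element of `F_E(N)`
regular at `R` has its value at `R` in `E`.

Proof: `f` a uniformiser of `R`; `f` has finitely many zeros `R = R₁, …, R_k`; for `i ≥ 2` choose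
`g_i ∈ 𝒪_R ∖ 𝒪_{R_i}` and put `s_i = f g_i^M` (`M` large): `R` is the ONLY place at which `f` and
all `s_i` have positive order.  `E₁` := a number field over which `f, s_i` have models.  An
automorphism `γ` of `ℚ̄` fixing `E ⊇ E₁` fixes `f, s_i`, hence `γ̃ R = R`; if `x ∈ F_E` has value
`c` at `R` then `x - γ c = γ̃ (x - c) ∈ 𝔪_{γ̃ R} = 𝔪_R`, so `γ c = c`; Galois theory: `c ∈ E`.
-/

set_option autoImplicit false
set_option linter.unusedSectionVars false
set_option linter.unusedVariables false
set_option linter.style.haveILetI false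

noncomputable section

namespace Fermat.Agent.SS

open ModularCurve AlgebraicCurve IntermediateField Fermat.Agent.S18 Fermat.Agent.S24
  Fermat.Agent.G

open scoped Pointwise

/-! ### models over all big number fields -/

/-- every element of `F_ℚ̄(N)` comes from `F_E(N)` for all big number fields `E`. -/
theorem ssdr_exists_model (N : ℕ) [NeZero N] (x : modularFunctionFieldBar N) :
    ∃ E₀ : IntermediateField ℚ (AlgebraicClosure ℚ), FiniteDimensional ℚ E₀ ∧
      ∀ E : IntermediateField ℚ (AlgebraicClosure ℚ), E₀ ≤ E →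
        ∃ z : modularFunctionFieldFullC E N, ssdUp E N z = x := by
  obtain ⟨E₀, hfd, z, hz, hzx⟩ := s18dd_exists_model N x.1 x.2
  refine ⟨E₀, hfd, fun E hE => ?_⟩
  obtain ⟨h1, h2⟩ := s18dd_model_mono N hE z hz
  refine ⟨⟨_, h1⟩, Subtype.ext ?_⟩
  rw [coe_ssdUp]
  exact h2.trans hzx

/-- the same for a finite set -/
theorem ssdr_exists_model_finset (N : ℕ) [NeZero N] (S : Finset (modularFunctionFieldBar N)) :
    ∃ E₁ : IntermediateField ℚ (AlgebraicClosure ℚ), FiniteDimensional ℚ E₁ ∧
      ∀ E : IntermediateField ℚ (AlgebraicClosure ℚ), E₁ ≤ E → ∀ x ∈ S,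
        ∃ z : modularFunctionFieldFullC E N, ssdUp E N z = x := by
  classical
  induction S using Finset.induction_on with
  | empty => exact ⟨⊥, inferInstance, fun E _ x hx => absurd hx (Finset.notMem_empty x)⟩
  | insert a S ha ih =>
    obtain ⟨E₁, hfd₁, h₁⟩ := ih
    obtain ⟨E₀, hfd₀, h₀⟩ := ssdr_exists_model N a
    haveI := hfd₁
    haveI := hfd₀
    refine ⟨E₀ ⊔ E₁, IntermediateField.finiteDimensional_sup E₀ E₁, fun E hE x hx => ?_⟩
    rcases Finset.mem_insert.mp hx with rfl | hx
    · exact h₀ E (le_sup_left.trans hE)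
    · exact h₁ E (le_sup_right.trans hE) x hx

/-- an automorphism of `ℚ̄` fixing `E` fixes the image of `F_E(N)`. -/
theorem ssdr_smul_up (N : ℕ) [NeZero N] (E : IntermediateField ℚ (AlgebraicClosure ℚ))
    (γ : AlgebraicClosure ℚ ≃ₐ[ℚ] AlgebraicClosure ℚ)
    (hγ : ∀ e : E, γ (e : AlgebraicClosure ℚ) = e) (z : modularFunctionFieldFullC E N) :
    arithmeticGalois (modularFunctionFieldFull N) γ • ssdUp E N z = ssdUp E N z := by
  apply Subtype.ext
  rw [coe_arithmeticGalois_smul, coe_ssdUp]
  show coeffMap _ (coeffMap (algebraMap E (AlgebraicClosure ℚ)) _) = _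
  rw [coeffMap_coeffMap]
  exact coeffMap_congr (RingHom.ext fun e => hγ e) _

/-! ### generic facts on places -/

section Generic

variable {K F : Type*} [Field K] [Field F] [Algebra K F]

/-- distinct places are incomparable -/
theorem ssdr_exists_mem_not_mem (R R' : Place K F) (h : R' ≠ R) :
    ∃ g : F, g ∈ R.toValuationSubring ∧ g ∉ R'.toValuationSubring := by
  by_contra hcon
  push Not at hcon
  have hle : R.toValuationSubring ≤ R'.toValuationSubring := fun g hg => hcon g hg
  have := ValuationSubring.eq_of_le_of_ne_top _ hle R'.ne_top'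
  exact h (Place.ext this.symm)

theorem ssdr_ord_pow (R : Place K F) (f : F) (n : ℕ) : R.ord (f ^ n) = n * R.ord f := by
  rw [← zpow_natCast, R.ord_zpow]

/-- a finite set of functions with `R` as their only common zero -/
theorem ssdr_exists_pinning [HasPrincipalDivisors K F] (R : Place K F) (f : F)
    (hf : R.ord f = 1) :
    ∃ S : Finset F, f ∈ S ∧ (∀ s ∈ S, 0 < R.ord s) ∧
      ∀ R' : Place K F, (∀ s ∈ S, 0 < R'.ord s) → R' = R := by
  classical
  have hf0 : f ≠ 0 := by
    rintro rfl
    simp at hf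
  obtain ⟨D, hD, -⟩ := HasPrincipalDivisors.exists_divisor (K := K) f hf0
  have hex : ∀ R' : Place K F, ∃ g : F, R' ≠ R →
      g ∈ R.toValuationSubring ∧ g ∉ R'.toValuationSubring := by
    intro R'
    by_cases h : R' = R
    · exact ⟨0, fun h' => absurd h h'⟩
    · obtain ⟨g, hg⟩ := ssdr_exists_mem_not_mem R R' h
      exact ⟨g, fun _ => hg⟩
  choose g hg using hex
  let s : Place K F → F := fun R' => f * g R' ^ ((R'.ord f).toNat + 1)
  refine ⟨insert f ((D.support.filter (· ≠ R)).image s), Finset.mem_insert_self _ _, ?_, ?_⟩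
  · intro x hx
    rcases Finset.mem_insert.mp hx with rfl | hx
    · rw [hf]; exact one_pos
    · obtain ⟨R', hR', rfl⟩ := Finset.mem_image.mp hx
      have hne : R' ≠ R := (Finset.mem_filter.mp hR').2
      obtain ⟨hgR, hgR'⟩ := hg R' hne
      have hg0 : g R' ≠ 0 := fun h0 => hgR' (h0 ▸ zero_mem _)
      show 0 < R.ord (f * g R' ^ ((R'.ord f).toNat + 1))
      rw [R.ord_mul hf0 (pow_ne_zero _ hg0), hf, ssdr_ord_pow]
      have := PlaceOrd.ord_nonneg_of_mem R hgR
      positivity
  · intro R' hR'
    by_contra hne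
    have hfpos : 0 < R'.ord f := hR' f (Finset.mem_insert_self _ _)
    have hsupp : R' ∈ D.support := by
      rw [Finsupp.mem_support_iff, hD]
      omega
    have hmem : s R' ∈ insert f ((D.support.filter (· ≠ R)).image s) :=
      Finset.mem_insert_of_mem
        (Finset.mem_image_of_mem _ (Finset.mem_filter.mpr ⟨hsupp, hne⟩))
    have hpos := hR' _ hmem
    obtain ⟨hgR, hgR'⟩ := hg R' hne
    have hg0 : g R' ≠ 0 := fun h0 => hgR' (h0 ▸ zero_mem _)
    have hneg : R'.ord (g R') < 0 := by
      by_contra h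
      push Not at h
      exact hgR' (PlaceOrd.mem_of_ord_nonneg R' h)
    change 0 < R'.ord (f * g R' ^ ((R'.ord f).toNat + 1)) at hpos
    rw [R'.ord_mul hf0 (pow_ne_zero _ hg0), ssdr_ord_pow] at hpos
    have hM : ((R'.ord f).toNat : ℤ) = R'.ord f := Int.toNat_of_nonneg hfpos.le
    push_cast at hpos
    rw [hM] at hpos
    nlinarith

/-- the action of a semilinear automorphism on the maximal ideals -/
theorem ssdr_smul_mem_nonunits (g : SemilinearAut K F) (A : ValuationSubring F) {y : F}
    (hy : y ∈ A.nonunits) : g • y ∈ (g • A).nonunits := by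
  rw [ValuationSubring.mem_nonunits_iff_or] at hy ⊢
  rcases hy with rfl | hy
  · left; exact smul_zero g
  · right
    intro h
    apply hy
    have h1 : (g • y)⁻¹ = g • y⁻¹ := (smul_inv'' g y).symm
    rw [h1] at h
    exact ValuationSubring.smul_mem_pointwise_smul_iff.mp h

/-- a constant in the maximal ideal of a place is zero -/
theorem ssdr_const_eq_zero (R : Place K F) (a : K)
    (ha : algebraMap K F a ∈ R.toValuationSubring.nonunits) : a = 0 := by
  by_contra h0
  have h1 := grdv_valuation_algebraMap R h0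
  rw [ValuationSubring.mem_nonunits_iff, h1] at ha
  exact lt_irrefl _ ha

/-- a uniformiser -/
theorem ssdr_exists_ord_eq_one (R : Place K F) : ∃ f : F, R.ord f = 1 := by
  obtain ⟨π, hπ⟩ := IsDiscreteValuationRing.exists_irreducible R.toValuationSubring
  exact ⟨π, R.ord_coe_irreducible hπ⟩

end Generic

/-! ### the theorem -/

/-- (DICT, rationality) for a place `R` of `F_ℚ̄(N)` and every big number field `E` : `R` has a
uniformiser in `F_E(N)` and `E`-rational values on `F_E(N)`. -/
theorem ssd_exists_rational (N : ℕ) [NeZero N]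
    (R : Place (AlgebraicClosure ℚ) (modularFunctionFieldBar N)) :
    ∃ E₁ : IntermediateField ℚ (AlgebraicClosure ℚ), FiniteDimensional ℚ E₁ ∧
      ∀ E : IntermediateField ℚ (AlgebraicClosure ℚ), E₁ ≤ E →
        (∃ π : modularFunctionFieldFullC E N, R.ord (ssdUp E N π) = 1) ∧
        ∀ x : modularFunctionFieldFullC E N, ssdUp E N x ∈ R.toValuationSubring →
          ∃ c : E, ssdUp E N x -
            algebraMap (AlgebraicClosure ℚ) (modularFunctionFieldBar N)
              (algebraMap E (AlgebraicClosure ℚ) c) ∈ R.toValuationSubring.nonunits := by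
  classical
  haveI := gff_hasPrincipalDivisors N
  obtain ⟨f, hf⟩ := ssdr_exists_ord_eq_one R
  obtain ⟨S, hfS, hSpos, hSuniq⟩ := ssdr_exists_pinning R f hf
  obtain ⟨E₁, hfd, hE₁⟩ := ssdr_exists_model_finset N S
  refine ⟨E₁, hfd, fun E hE => ⟨?_, ?_⟩⟩
  · obtain ⟨z, hz⟩ := hE₁ E hE f hfS
    exact ⟨z, by rw [hz]; exact hf⟩
  · intro x hx
    obtain ⟨c, hc⟩ := grdg_val_exists (isSepGen_jBar N) R hx
    -- `c` is fixed by `Gal(ℚ̄/E)`
    have hfix : ∀ φ : AlgebraicClosure ℚ ≃ₐ[E] AlgebraicClosure ℚ, φ c = c := by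
      intro φ
      set γ : AlgebraicClosure ℚ ≃ₐ[ℚ] AlgebraicClosure ℚ := φ.restrictScalars ℚ with hγdef
      have hγ : ∀ e : E, γ (e : AlgebraicClosure ℚ) = e := fun e => φ.commutes e
      set γt := arithmeticGalois (modularFunctionFieldFull N) γ with hγt
      -- `γ̃ R = R`
      have hR : γt • R = R := by
        apply hSuniq
        intro s hs
        obtain ⟨z, hz⟩ := hE₁ E hE s hs
        have h1 : γt • s = s := by rw [← hz]; exact ssdr_smul_up N E γ hγ z
        have h2 := SemilinearAut.ord_smul γt R s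
        rw [h1] at h2
        rw [h2]
        exact hSpos s hs
      -- apply `γ̃` to `x - c`
      have h3 := ssdr_smul_mem_nonunits γt R.toValuationSubring hc
      rw [← SemilinearAut.smul_toValuationSubring, hR] at h3
      have h4 : γt • (ssdUp E N x - algebraMap (AlgebraicClosure ℚ) (modularFunctionFieldBar N) c)
          = ssdUp E N x - algebraMap (AlgebraicClosure ℚ) (modularFunctionFieldBar N) (γ c) := by
        rw [smul_sub, ssdr_smul_up N E γ hγ x, SemilinearAut.smul_algebraMap]
        rfl
      rw [h4] at h3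
      have h5 : algebraMap (AlgebraicClosure ℚ) (modularFunctionFieldBar N) (γ c - c)
          ∈ R.toValuationSubring.nonunits := by
        have := sub_mem hc h3
        have h6 : (ssdUp E N x - algebraMap (AlgebraicClosure ℚ) (modularFunctionFieldBar N) c)
            - (ssdUp E N x - algebraMap (AlgebraicClosure ℚ) (modularFunctionFieldBar N) (γ c))
            = algebraMap (AlgebraicClosure ℚ) (modularFunctionFieldBar N) (γ c - c) := by
          rw [map_sub]; ring
        rwa [h6] at this
      have h7 := ssdr_const_eq_zero R _ h5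
      exact sub_eq_zero.mp h7
    haveI : Algebra.IsAlgebraic ℚ (AlgebraicClosure ℚ) := AlgebraicClosure.isAlgebraic ℚ
    haveI : Algebra.IsAlgebraic E (AlgebraicClosure ℚ) := Algebra.IsAlgebraic.tower_top (K := ℚ) E
    haveI : IsAlgClosure E (AlgebraicClosure ℚ) := ⟨inferInstance, inferInstance⟩
    haveI : Normal E (AlgebraicClosure ℚ) := IsAlgClosure.normal E (AlgebraicClosure ℚ)
    haveI : IsGalois E (AlgebraicClosure ℚ) := ⟨⟩
    obtain ⟨c', hc'⟩ := (InfiniteGalois.mem_range_algebraMap_iff_fixed
      (k := E) (K := AlgebraicClosure ℚ) c).mpr hfix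
    refine ⟨c', ?_⟩
    rw [hc']
    exact hc

end Fermat.Agent.SS
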