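import Mathlib
import Fermat.Agent.S24.PlacesPrincipal
import Fermat.Agent.SS.NF.Defs
import Fermat.Agent.SS.Dict.Place
import Fermat.Agent.SS.Dict.Rational

/-!
# Program S, (DICT) : descent of a function with `n`-divisible divisor to a number field

`ssd_descend` : `g ∈ F_ℚ̄(N)ˣ` with `n ∣ ord_R g` at every place ⟹ there is a number field `E₁` such
that for EVERY `E ⊇ E₁` the function `g` comes from `g_E ∈ F_E(N)` and, over `E` : `n ∣ ord_R g_E`
at every place of `F_E(N) / E`, the support of `div g_E` is finite and consists of `E`-rational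
places.  These are exactly the hypotheses `hg1 hg2 hg3` of `ss_numberfield`.
-/

set_option autoImplicit false
set_option linter.unusedSectionVars false
set_option linter.unusedVariables false
set_option linter.style.haveILetI false

noncomputable section

namespace Fermat.Agent.SS

open ModularCurve AlgebraicCurve IntermediateField Polynomial Fermat.Agent.S18 Fermat.Agent.S24

variable (N : ℕ) [NeZero N]

/-- every element of `F_ℚ̄(N)` is defined over every sufficiently large number field. -/
theorem ssd_exists_model (x : modularFunctionFieldBar N) :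
    ∃ E₁ : IntermediateField ℚ (AlgebraicClosure ℚ), FiniteDimensional ℚ E₁ ∧
      ∀ E : IntermediateField ℚ (AlgebraicClosure ℚ), E₁ ≤ E →
        ∃ xE : modularFunctionFieldFullC E N, ssdUp E N xE = x := by
  obtain ⟨E₁, hfin, z, hz, hzx⟩ := s18dd_exists_model N x.1 x.2
  refine ⟨E₁, hfin, fun E hE => ?_⟩
  obtain ⟨h1, h2⟩ := s18dd_model_mono N hE z hz
  exact ⟨⟨_, h1⟩, Subtype.ext (by rw [coe_ssdUp]; exact h2.trans hzx)⟩

/-- the nonunits of a place of the `E`-form, seen upstairs -/
theorem ssd_mem_nonunits (E : IntermediateField ℚ (AlgebraicClosure ℚ))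
    (R' : Place (AlgebraicClosure ℚ) (modularFunctionFieldBar N))
    (R : Place E (modularFunctionFieldFullC E N))
    (hR : R'.toValuationSubring.comap (ssdUp E N) = R.toValuationSubring)
    (y : modularFunctionFieldFullC E N)
    (hy : ssdUp E N y ∈ R'.toValuationSubring.nonunits) : y ∈ R.toValuationSubring.nonunits := by
  rw [ValuationSubring.mem_nonunits_iff] at hy ⊢
  by_contra hcon
  rw [not_lt] at hcon
  have hy0 : y ≠ 0 := by
    rintro rfl
    rw [map_zero] at hcon
    exact absurd hcon (by simp)
  have hinv : y⁻¹ ∈ R.toValuationSubring := by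
    rw [← ValuationSubring.valuation_le_one_iff, map_inv₀]
    exact inv_le_one_of_one_le₀ hcon
  rw [← hR, ValuationSubring.mem_comap, map_inv₀, ← ValuationSubring.valuation_le_one_iff,
    map_inv₀] at hinv
  have h0 : R'.toValuationSubring.valuation (ssdUp E N y) ≠ 0 :=
    (Valuation.ne_zero_iff _).mpr ((_root_.map_ne_zero _).mpr hy0)
  have := (inv_le_one₀ (zero_lt_iff.mpr h0)).mp hinv
  exact absurd hy (not_lt.mpr this)

/-- (DICT) THE DESCENT of a function with `n`-divisible divisor. -/
theorem ssd_descend (n : ℕ) (g : modularFunctionFieldBar N) (hg : g ≠ 0)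
    (hdiv : ∀ R : Place (AlgebraicClosure ℚ) (modularFunctionFieldBar N), (n : ℤ) ∣ R.ord g) :
    ∃ E₁ : IntermediateField ℚ (AlgebraicClosure ℚ), FiniteDimensional ℚ E₁ ∧
      ∀ E : IntermediateField ℚ (AlgebraicClosure ℚ), E₁ ≤ E →
        ∃ gE : modularFunctionFieldFullC E N, ssdUp E N gE = g ∧
          (∀ R : Place E (modularFunctionFieldFullC E N), (n : ℤ) ∣ R.ord gE) ∧
          (∀ R : Place E (modularFunctionFieldFullC E N), R.ord gE ≠ 0 → SsRational R) ∧
          {R : Place E (modularFunctionFieldFullC E N) | R.ord gE ≠ 0}.Finite := by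
  classical
  have hfin : {v : Place (AlgebraicClosure ℚ) (modularFunctionFieldBar N) | v.ord g ≠ 0}.Finite :=
    (isSepGen_jBar N).finite_ord_ne_zero hg
  obtain ⟨E₀, hE₀fin, hE₀⟩ := ssd_exists_model N g
  choose Ef hEffin hEf using fun R => ssd_exists_rational N R
  refine ⟨E₀ ⊔ ⨆ R ∈ hfin.toFinset, Ef R, ?_, fun E hE => ?_⟩
  · haveI := hE₀fin
    haveI : FiniteDimensional ℚ (⨆ R ∈ hfin.toFinset, Ef R : IntermediateField ℚ _) :=
      IntermediateField.finiteDimensional_iSup_of_finset' fun R _ => hEffin R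
    exact IntermediateField.finiteDimensional_sup _ _
  have hE0 : E₀ ≤ E := le_sup_left.trans hE
  have hER : ∀ R ∈ hfin.toFinset, Ef R ≤ E := fun R hR =>
    (le_iSup₂ (f := fun R (_ : R ∈ hfin.toFinset) => Ef R) R hR).trans (le_sup_right.trans hE)
  obtain ⟨gE, hgE⟩ := hE₀ E hE0
  -- the key: at a place of the `E`-form where `g_E` has nonzero order
  have key : ∀ R : Place E (modularFunctionFieldFullC E N), R.ord gE ≠ 0 →
      ∃ R' : Place (AlgebraicClosure ℚ) (modularFunctionFieldBar N),
        R'.toValuationSubring.comap (ssdUp E N) = R.toValuationSubring ∧ R' ∈ hfin.toFinset ∧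
        R'.ord g = R.ord gE := by
    intro R hR0
    obtain ⟨R', hR'⟩ := ssd_extend E N R
    obtain ⟨R₁, r, hr, hR₁, hord⟩ := ssd_restrict E N R'
    have hRR : R₁ = R := Place.ext (hR₁.trans hR')
    subst hRR
    have h1 : R'.ord g = r * R₁.ord gE := by rw [← hgE]; exact hord gE
    have hmem : R' ∈ hfin.toFinset := by
      rw [Set.Finite.mem_toFinset, Set.mem_ofPred_eq, h1]
      exact mul_ne_zero (by exact_mod_cast hr.ne') hR0
    obtain ⟨⟨π, hπ⟩, -⟩ := hEf R' E (hER R' hmem)
    rw [hord π] at hπ
    have hr1 : (r : ℤ) = 1 := by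
      have h2 : (r : ℤ) ∣ 1 := ⟨_, hπ.symm⟩
      exact Int.eq_one_of_dvd_one (by positivity) h2
    exact ⟨R', hR', hmem, by rw [h1, hr1, one_mul]⟩
  refine ⟨gE, hgE, fun R => ?_, fun R hR0 => ?_, ?_⟩
  · by_cases hR0 : R.ord gE = 0
    · rw [hR0]; exact dvd_zero _
    · obtain ⟨R', -, -, h⟩ := key R hR0
      rw [← h]; exact hdiv R'
  · obtain ⟨R', hR', hmem, -⟩ := key R hR0
    intro x hx
    have hx' : ssdUp E N x ∈ R'.toValuationSubring := by
      rw [← ValuationSubring.mem_comap, hR']; exact hx
    obtain ⟨c, hc⟩ := (hEf R' E (hER R' hmem)).2 x hx'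
    refine ⟨c, ssd_mem_nonunits N E R' R hR' _ ?_⟩
    rw [map_sub, ssdUp_algebraMap]
    exact hc
  · -- finiteness : `R` is the restriction of a place in the support of `g`
    let res : Place (AlgebraicClosure ℚ) (modularFunctionFieldBar N) →
        Place E (modularFunctionFieldFullC E N) := fun R' => (ssd_restrict E N R').choose
    have hres : ∀ R', (res R').toValuationSubring =
        R'.toValuationSubring.comap (ssdUp E N) := fun R' =>
      (ssd_restrict E N R').choose_spec.choose_spec.2.1
    refine (hfin.toFinset.finite_toSet.image res).subset fun R hR0 => ?_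
    obtain ⟨R', hR', hmem, -⟩ := key R hR0
    exact ⟨R', hmem, Place.ext ((hres R').trans hR')⟩

end Fermat.Agent.SS
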